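import Mathlib

set_option linter.style.haveILetI false

/-!
# Lang's place-extension theorem (helper377, S17 / G-DIV piece PLACE, Mathlib-only)

`exists_valuationSubring_extends`: a ring hom `φ : A →+* k` from a subring `A` of a field `Ω`
into an algebraically closed field `k` extends to a valuation subring `V ⊇ A` of `Ω`,
`π : V →+* k`, with `ker π` the maximal ideal of `V`.
(Atiyah–Macdonald 5.21.)
-/

set_option autoImplicit false

namespace Fermat.Agent.S17.H377

open IsLocalRing Polynomial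

section Graph

variable {Ω k : Type*} [Field Ω] [Field k]

/-- A subring of `Ω × k` which is the graph of a partial ring hom. -/
def IsFunctionalGraph (G : Subring (Ω × k)) : Prop := ∀ c : k, ((0 : Ω), c) ∈ G → c = 0

/-- The graph of a partial ring hom. -/
def graphOf (A : Subring Ω) (f : A →+* k) : Subring (Ω × k) :=
  (A.subtype.prod f).range

theorem mem_graphOf {A : Subring Ω} {f : A →+* k} {p : Ω × k} :
    p ∈ graphOf A f ↔ ∃ a : A, (a : Ω) = p.1 ∧ f a = p.2 := by
  simp only [graphOf, RingHom.mem_range, RingHom.prod_apply, Subring.subtype_apply, Prod.ext_iff]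

theorem isFunctionalGraph_graphOf (A : Subring Ω) (f : A →+* k) :
    IsFunctionalGraph (graphOf A f) := by
  intro c hc
  obtain ⟨a, ha1, ha2⟩ := mem_graphOf.mp hc
  have : a = 0 := Subtype.ext ha1
  simpa [this] using ha2.symm

/-- The domain of a graph. -/
def domOf (G : Subring (Ω × k)) : Subring Ω := G.map (RingHom.fst Ω k)

theorem mem_domOf {G : Subring (Ω × k)} {x : Ω} : x ∈ domOf G ↔ ∃ c : k, (x, c) ∈ G := by
  simp only [domOf, Subring.mem_map, RingHom.coe_fst]
  constructor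
  · rintro ⟨p, hp, rfl⟩
    exact ⟨p.2, hp⟩
  · rintro ⟨c, hc⟩
    exact ⟨(x, c), hc, rfl⟩

theorem snd_unique {G : Subring (Ω × k)} (hG : IsFunctionalGraph G) {x : Ω} {c c' : k}
    (h : (x, c) ∈ G) (h' : (x, c') ∈ G) : c = c' := by
  have h2 := G.sub_mem h h'
  have h3 : ((x, c) - (x, c') : Ω × k) = (0, c - c') := by
    ext <;> simp
  rw [h3] at h2
  exact sub_eq_zero.mp (hG _ h2)

/-- The partial hom of a functional graph. -/
noncomputable def homOf (G : Subring (Ω × k)) (hG : IsFunctionalGraph G) : domOf G →+* k where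
  toFun x := Classical.choose (mem_domOf.mp x.2)
  map_one' := snd_unique hG (Classical.choose_spec (mem_domOf.mp (1 : domOf G).2)) G.one_mem
  map_zero' := snd_unique hG (Classical.choose_spec (mem_domOf.mp (0 : domOf G).2)) G.zero_mem
  map_mul' x y := snd_unique hG (Classical.choose_spec (mem_domOf.mp (x * y).2))
    (G.mul_mem (Classical.choose_spec (mem_domOf.mp x.2)) (Classical.choose_spec (mem_domOf.mp y.2)))
  map_add' x y := snd_unique hG (Classical.choose_spec (mem_domOf.mp (x + y).2))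
    (G.add_mem (Classical.choose_spec (mem_domOf.mp x.2)) (Classical.choose_spec (mem_domOf.mp y.2)))

theorem homOf_spec (G : Subring (Ω × k)) (hG : IsFunctionalGraph G) (x : domOf G) :
    ((x : Ω), homOf G hG x) ∈ G :=
  Classical.choose_spec (mem_domOf.mp x.2)

theorem homOf_eq (G : Subring (Ω × k)) (hG : IsFunctionalGraph G) {x : Ω} {c : k}
    (h : (x, c) ∈ G) : homOf G hG ⟨x, mem_domOf.mpr ⟨c, h⟩⟩ = c :=
  snd_unique hG (homOf_spec G hG _) h

/-- A maximal partial ring hom from a subring of `Ω` to `k`. -/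
def IsMaxPartialHom (V : Subring Ω) (π : V →+* k) : Prop :=
  ∀ (A : Subring Ω) (f : A →+* k) (h : V ≤ A),
    (∀ v : V, f (Subring.inclusion h v) = π v) → A ≤ V

/-- Zorn: every partial hom extends to a maximal one. -/
theorem exists_isMaxPartialHom (A : Subring Ω) (φ : A →+* k) :
    ∃ (V : Subring Ω) (π : V →+* k) (h : A ≤ V),
      (∀ a : A, π (Subring.inclusion h a) = φ a) ∧ IsMaxPartialHom V π := by
  obtain ⟨G, hG0, hGmax⟩ := zorn_le_nonempty₀ {G : Subring (Ω × k) | IsFunctionalGraph G}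
    (fun c hc hchain y hy => by
      refine ⟨sSup c, ?_, fun z hz => le_sSup hz⟩
      intro d hd
      obtain ⟨s, hs, hds⟩ :=
        (Subring.mem_sSup_of_directedOn ⟨y, hy⟩ hchain.directedOn).mp hd
      exact hc hs d hds)
    (graphOf A φ) (isFunctionalGraph_graphOf A φ)
  have hGf : IsFunctionalGraph G := hGmax.prop
  have hAV : A ≤ domOf G := fun a ha =>
    mem_domOf.mpr ⟨φ ⟨a, ha⟩, hG0 (mem_graphOf.mpr ⟨⟨a, ha⟩, rfl, rfl⟩)⟩
  refine ⟨domOf G, homOf G hGf, hAV, fun a => ?_, ?_⟩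
  · exact homOf_eq G hGf (hG0 (mem_graphOf.mpr ⟨a, rfl, rfl⟩))
  · intro B f hVB hext b hb
    have hle : G ≤ graphOf B f := by
      rintro ⟨x, c⟩ hxc
      have hx : x ∈ domOf G := mem_domOf.mpr ⟨c, hxc⟩
      refine mem_graphOf.mpr ⟨⟨x, hVB hx⟩, rfl, ?_⟩
      have := hext ⟨x, hx⟩
      rw [homOf_eq G hGf hxc] at this
      exact this
    have hge : graphOf B f ≤ G := hGmax.le_of_ge (isFunctionalGraph_graphOf B f) hle
    exact mem_domOf.mpr ⟨f ⟨b, hb⟩, hge (mem_graphOf.mpr ⟨⟨b, hb⟩, rfl, rfl⟩)⟩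

end Graph

section MaxHom

variable {Ω k : Type*} [Field Ω] [Field k]

/-- For a maximal partial hom, elements not in the kernel are invertible in the domain. -/
theorem IsMaxPartialHom.inv_mem {V : Subring Ω} {π : V →+* k} (hmax : IsMaxPartialHom V π)
    (v : V) (hv : π v ≠ 0) : ((v : Ω))⁻¹ ∈ V := by
  classical
  let P : Ideal V := RingHom.ker π
  have : P.IsPrime := RingHom.ker_isPrime π
  let A : Subring Ω := (LocalSubring.ofPrime V P).toSubring
  have hg : ∀ y : P.primeCompl, IsUnit (π y) := fun y =>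
    IsUnit.mk0 _ (fun h => y.2 ((RingHom.mem_ker).mpr h))
  let f : A →+* k := IsLocalization.lift (M := P.primeCompl) (S := A) hg
  have hA : A ≤ V := hmax A f (LocalSubring.le_ofPrime V P)
    (fun v => IsLocalization.lift_eq (M := P.primeCompl) (S := A) hg v)
  have hvP : v ∈ P.primeCompl := fun h => hv ((RingHom.mem_ker).mp h)
  have hu : IsUnit (algebraMap V A v) := IsLocalization.map_units A ⟨v, hvP⟩
  obtain ⟨u, hu'⟩ := isUnit_iff_exists_inv.mp hu
  have h1 : (v : Ω) * (u : Ω) = 1 := congrArg Subtype.val hu'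
  have h2 : ((v : Ω))⁻¹ = (u : Ω) := by
    have hv0 : (v : Ω) ≠ 0 := left_ne_zero_of_mul_eq_one h1
    exact inv_eq_of_mul_eq_one_right h1
  rw [h2]
  exact hA u.2

theorem IsMaxPartialHom.ker_isMaximal {V : Subring Ω} {π : V →+* k}
    (hmax : IsMaxPartialHom V π) : (RingHom.ker π).IsMaximal := by
  refine Ideal.isMaximal_iff.mpr ⟨fun h => ?_, fun J x hJ hx hxJ => ?_⟩
  · have : π 1 = 0 := (RingHom.mem_ker).mp h
    simp at this
  · have hx' : π x ≠ 0 := fun h => hx ((RingHom.mem_ker).mpr h)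
    have hinv := hmax.inv_mem x hx'
    have : (⟨((x : Ω))⁻¹, hinv⟩ : V) * x = 1 := by
      apply Subtype.ext
      have hx0 : (x : Ω) ≠ 0 := fun h => hx' (by
        have : x = 0 := Subtype.ext h
        simp [this])
      simp [hx0]
    rw [← this]
    exact J.mul_mem_left _ hxJ

/-- Core step: if `ker π` does not generate the unit ideal of `V[y]`, then `y ∈ V`. -/
theorem IsMaxPartialHom.mem_of_map_ne_top [IsAlgClosed k] {V : Subring Ω} {π : V →+* k}
    (hmax : IsMaxPartialHom V π) (y : Ω)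
    (hy : (RingHom.ker π).map (algebraMap V (Algebra.adjoin V {y})) ≠ ⊤) : y ∈ V := by
  classical
  have hPmax : (RingHom.ker π).IsMaximal := hmax.ker_isMaximal
  obtain ⟨M, hM, hPM⟩ := Ideal.exists_le_maximal _ hy
  have hcomap : RingHom.ker π ≤ M.comap (algebraMap V (Algebra.adjoin V {y})) :=
    Ideal.map_le_iff_le_comap.mp hPM
  letI : Field (V ⧸ RingHom.ker π) := Ideal.Quotient.field _
  letI : Field (Algebra.adjoin V {y} ⧸ M) := Ideal.Quotient.field M
  letI : Algebra (V ⧸ RingHom.ker π) (Algebra.adjoin V {y} ⧸ M) :=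
    (Ideal.quotientMap M (algebraMap V (Algebra.adjoin V {y})) hcomap).toAlgebra
  letI : Algebra (V ⧸ RingHom.ker π) k := (RingHom.kerLift π).toAlgebra
  haveI : IsScalarTower V (V ⧸ RingHom.ker π) (Algebra.adjoin V {y} ⧸ M) :=
    IsScalarTower.of_algebraMap_eq (fun v => rfl)
  haveI : Algebra.FiniteType V (Algebra.adjoin V {y}) := by
    have h := Subalgebra.fg_adjoin_finset (R := V) ({y} : Finset Ω)
    rw [Finset.coe_singleton] at h
    exact (Subalgebra.fg_iff_finiteType _).mp h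
  haveI : Algebra.FiniteType V (Algebra.adjoin V {y} ⧸ M) :=
    Algebra.FiniteType.of_surjective (Ideal.Quotient.mkₐ V M) Ideal.Quotient.mk_surjective
  haveI : Algebra.FiniteType (V ⧸ RingHom.ker π) (Algebra.adjoin V {y} ⧸ M) :=
    Algebra.FiniteType.of_restrictScalars_finiteType V _ _
  haveI : Module.Finite (V ⧸ RingHom.ker π) (Algebra.adjoin V {y} ⧸ M) :=
    finite_of_finite_type_of_isJacobsonRing _ _
  haveI : Algebra.IsAlgebraic (V ⧸ RingHom.ker π) (Algebra.adjoin V {y} ⧸ M) :=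
    Algebra.IsAlgebraic.of_finite _ _
  haveI : Module.IsTorsionFree (V ⧸ RingHom.ker π) (Algebra.adjoin V {y} ⧸ M) :=
    DivisionSemiring.to_moduleIsTorsionFree
  haveI : Module.IsTorsionFree (V ⧸ RingHom.ker π) k :=
    DivisionSemiring.to_moduleIsTorsionFree
  let ψ : (Algebra.adjoin V {y} ⧸ M) →ₐ[V ⧸ RingHom.ker π] k := IsAlgClosed.lift
  let f : (Algebra.adjoin V {y}).toSubring →+* k :=
    (ψ : (Algebra.adjoin V {y} ⧸ M) →+* k).comp (Ideal.Quotient.mk M)
  have hVS : V ≤ (Algebra.adjoin V {y}).toSubring := fun v hv =>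
    (Algebra.adjoin V {y}).algebraMap_mem ⟨v, hv⟩
  have hle := hmax (Algebra.adjoin V {y}).toSubring f hVS (fun v => by
    have h1 : f (Subring.inclusion hVS v)
        = ψ (algebraMap (V ⧸ RingHom.ker π) (Algebra.adjoin V {y} ⧸ M)
            (Ideal.Quotient.mk _ v)) := rfl
    rw [h1, ψ.commutes]
    rfl)
  exact hle (Algebra.subset_adjoin (Set.mem_singleton y))

/-- A maximal partial hom into an algebraically closed field is defined on a valuation ring. -/
theorem IsMaxPartialHom.mem_or_inv_mem [IsAlgClosed k] {V : Subring Ω} {π : V →+* k}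
    (hmax : IsMaxPartialHom V π) (x : Ω) : x ∈ V ∨ x⁻¹ ∈ V := by
  classical
  by_cases hx : x ∈ V
  · exact Or.inl hx
  right
  have hx0 : x ≠ 0 := fun h => hx (h ▸ V.zero_mem)
  have htop : (RingHom.ker π).map (algebraMap V (Algebra.adjoin V {x})) = ⊤ := by
    by_contra h
    exact hx (hmax.mem_of_map_ne_top x h)
  have hPmax : (RingHom.ker π).IsMaximal := hmax.ker_isMaximal
  letI := invertibleOfNonzero hx0
  obtain ⟨p, hp, hpx⟩ := Algebra.exists_aeval_invOf_eq_zero_of_idealMap_adjoin_sup_span_eq_top x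
    (RingHom.ker π) hPmax.ne_top (by rw [htop]; exact top_sup_eq _)
  have hlc : π p.leadingCoeff = 1 := by
    have := (RingHom.mem_ker).mp hp
    rwa [map_sub, map_one, sub_eq_zero] at this
  have hlcinv := hmax.inv_mem p.leadingCoeff (by rw [hlc]; exact one_ne_zero)
  have hlc0 : (p.leadingCoeff : Ω) ≠ 0 := by
    intro h
    have : p.leadingCoeff = 0 := Subtype.ext h
    rw [this, map_zero] at hlc
    exact zero_ne_one hlc
  have hunit : IsUnit p.leadingCoeff := by
    refine isUnit_iff_exists_inv.mpr ⟨⟨_, hlcinv⟩, Subtype.ext ?_⟩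
    simp [hlc0]
  have hint : IsIntegral V (x⁻¹) :=
    ⟨C hunit.unit⁻¹.1 * p, by simp [Polynomial.Monic], by
      have : (⅟x : Ω) = x⁻¹ := invOf_eq_inv x
      rw [this] at hpx
      rw [aeval_def] at hpx
      simp only [eval₂_mul, eval₂_C, hpx, mul_zero]⟩
  apply hmax.mem_of_map_ne_top x⁻¹
  haveI : Algebra.IsIntegral V (Algebra.adjoin V {x⁻¹}) :=
    Algebra.IsIntegral.adjoin (by simpa using hint)
  have hker : RingHom.ker (algebraMap V (Algebra.adjoin V {x⁻¹})) ≤ RingHom.ker π := by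
    intro v hv
    have h0 : algebraMap V (Algebra.adjoin V {x⁻¹}) v = 0 := (RingHom.mem_ker).mp hv
    have h1 : (v : Ω) = 0 := congrArg Subtype.val h0
    have : v = 0 := Subtype.ext h1
    rw [this]
    exact Ideal.zero_mem _
  obtain ⟨Q, hQ, hQc⟩ := Ideal.exists_ideal_over_maximal_of_isIntegral
    (S := Algebra.adjoin V {x⁻¹}) (RingHom.ker π) hker
  intro htop'
  have hle : (RingHom.ker π).map (algebraMap V (Algebra.adjoin V {x⁻¹})) ≤ Q :=
    Ideal.map_le_iff_le_comap.mpr hQc.ge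
  rw [htop'] at hle
  exact hQ.ne_top (top_le_iff.mp hle)

/-- **Lang's place-extension theorem** (Atiyah–Macdonald 5.21, Chevalley):
a ring hom from a subring `A` of a field `Ω` to an algebraically closed field `k` extends to a
valuation subring `V ⊇ A` of `Ω`; the kernel of the extension is the maximal ideal of `V`. -/
theorem exists_valuationSubring_extends [IsAlgClosed k] (A : Subring Ω) (φ : A →+* k) :
    ∃ (V : ValuationSubring Ω) (π : V →+* k),
      (∀ a : A, ∃ h : (a : Ω) ∈ V, π ⟨a, h⟩ = φ a) ∧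
      (∀ v : V, π v = 0 ↔ v ∈ IsLocalRing.maximalIdeal V) := by
  obtain ⟨V₀, π₀, hAV, hext, hmax⟩ := exists_isMaxPartialHom A φ
  let V : ValuationSubring Ω := ⟨V₀, fun x => hmax.mem_or_inv_mem x⟩
  refine ⟨V, π₀, fun a => ⟨hAV a.2, hext a⟩, fun v => ?_⟩
  rw [IsLocalRing.mem_maximalIdeal, mem_nonunits_iff]
  constructor
  · intro h hu
    have := hu.map π₀
    rw [h] at this
    exact not_isUnit_zero this
  · intro hnu
    by_contra h
    apply hnu
    have hinv := hmax.inv_mem v h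
    have hv0 : (v : Ω) ≠ 0 := by
      intro h0
      have : v = 0 := Subtype.ext h0
      rw [this, map_zero] at h
      exact h rfl
    refine isUnit_iff_exists_inv.mpr ⟨⟨_, hinv⟩, Subtype.ext ?_⟩
    show (v : Ω) * (v : Ω)⁻¹ = 1
    exact mul_inv_cancel₀ hv0

end MaxHom

section KPlace

variable (K : Type*) {Ω : Type*} [Field K] [Field Ω] [Algebra K Ω]

/-- `V` is a `K`-place of `Ω` with residue map `π`: a valuation subring of `Ω` containing `K`
whose residue field is `K` (via `π`, which is the identity on `K`). -/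
structure IsKPlace (V : ValuationSubring Ω) (π : V →+* K) : Prop where
  algebraMap_mem : ∀ c : K, algebraMap K Ω c ∈ V
  map_algebraMap : ∀ c : K, π ⟨algebraMap K Ω c, algebraMap_mem c⟩ = c
  ker : ∀ v : V, π v = 0 ↔ v ∈ IsLocalRing.maximalIdeal V

variable {K}

theorem IsKPlace.surjective {V : ValuationSubring Ω} {π : V →+* K} (h : IsKPlace K V π) :
    Function.Surjective π := fun c => ⟨_, h.map_algebraMap c⟩

/-- `V = K ⊕ 𝔪_V`. -/
theorem IsKPlace.sub_mem_maximalIdeal {V : ValuationSubring Ω} {π : V →+* K}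
    (h : IsKPlace K V π) (v : V) :
    v - ⟨algebraMap K Ω (π v), h.algebraMap_mem _⟩ ∈ IsLocalRing.maximalIdeal V := by
  rw [← h.ker, map_sub, h.map_algebraMap, sub_self]

theorem IsKPlace.isUnit_iff {V : ValuationSubring Ω} {π : V →+* K} (h : IsKPlace K V π)
    (v : V) : IsUnit v ↔ π v ≠ 0 := by
  rw [Ne, h.ker, IsLocalRing.mem_maximalIdeal, mem_nonunits_iff, not_not]

/-- If `x ∉ V` then `x⁻¹` lies in the maximal ideal, i.e. `π x⁻¹ = 0` ("`x` specialises to `∞`"). -/
theorem IsKPlace.map_inv_eq_zero {V : ValuationSubring Ω} {π : V →+* K} (h : IsKPlace K V π)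
    {x : Ω} (hx : x ∉ V) :
    ∃ hx' : x⁻¹ ∈ V, π ⟨x⁻¹, hx'⟩ = 0 := by
  have hx' : x⁻¹ ∈ V := (V.mem_or_inv_mem x).resolve_left hx
  refine ⟨hx', ?_⟩
  by_contra hne
  have hu : IsUnit (⟨x⁻¹, hx'⟩ : V) := (h.isUnit_iff _).mpr hne
  obtain ⟨w, hw⟩ := isUnit_iff_exists_inv.mp hu
  have h1 : x⁻¹ * (w : Ω) = 1 := congrArg Subtype.val hw
  have hx0 : x ≠ 0 := fun h0 => hx (h0 ▸ V.zero_mem)
  have : (w : Ω) = x := by
    field_simp at h1
    exact h1
  exact hx (this ▸ w.2)

/-- **Lang's theorem, `K`-algebra form**: a `K`-algebra hom `φ : B →ₐ[K] K` on a `K`-subalgebra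
`B` of a field `Ω` (`K` algebraically closed) extends to a `K`-place of `Ω`. -/
theorem exists_isKPlace_extends [IsAlgClosed K] (B : Subalgebra K Ω) (φ : B →ₐ[K] K) :
    ∃ (V : ValuationSubring Ω) (π : V →+* K), IsKPlace K V π ∧
      ∀ b : B, ∃ h : (b : Ω) ∈ V, π ⟨b, h⟩ = φ b := by
  obtain ⟨V, π, hext, hker⟩ := exists_valuationSubring_extends B.toSubring (φ : B →+* K)
  have hmem : ∀ c : K, algebraMap K Ω c ∈ V := fun c =>
    (hext ⟨algebraMap K Ω c, B.algebraMap_mem c⟩).1
  refine ⟨V, π, ⟨hmem, fun c => ?_, hker⟩, fun b => hext b⟩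
  obtain ⟨h, hc⟩ := hext ⟨algebraMap K Ω c, B.algebraMap_mem c⟩
  rw [hc]
  exact φ.commutes c

/-- Every field extension of an algebraically closed field `K` has a `K`-place. -/
theorem exists_isKPlace [IsAlgClosed K] :
    ∃ (V : ValuationSubring Ω) (π : V →+* K), IsKPlace K V π := by
  obtain ⟨V, π, h, -⟩ := exists_isKPlace_extends (⊥ : Subalgebra K Ω)
    ((Algebra.botEquiv K Ω : (⊥ : Subalgebra K Ω) →ₐ[K] K))
  exact ⟨V, π, h⟩

/-- Algebraically independent elements can be specialised to arbitrary values of `K`. -/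
theorem exists_isKPlace_of_algebraicIndependent [IsAlgClosed K] {ι : Type*} (t : ι → Ω)
    (ht : AlgebraicIndependent K t) (c : ι → K) :
    ∃ (V : ValuationSubring Ω) (π : V →+* K), IsKPlace K V π ∧
      ∀ i, ∃ h : t i ∈ V, π ⟨t i, h⟩ = c i := by
  let φ : Algebra.adjoin K (Set.range t) →ₐ[K] K :=
    (MvPolynomial.aeval c).comp (ht.aevalEquiv.symm : _ →ₐ[K] MvPolynomial ι K)
  obtain ⟨V, π, hK, hext⟩ := exists_isKPlace_extends (Algebra.adjoin K (Set.range t)) φ
  refine ⟨V, π, hK, fun i => ?_⟩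
  have hti : t i ∈ Algebra.adjoin K (Set.range t) := Algebra.subset_adjoin ⟨i, rfl⟩
  obtain ⟨h, hi⟩ := hext ⟨t i, hti⟩
  refine ⟨h, hi.trans ?_⟩
  have h1 : ht.aevalEquiv (MvPolynomial.X i) = ⟨t i, hti⟩ := by
    apply Subtype.ext
    simp
  have h2 : ht.aevalEquiv.symm ⟨t i, hti⟩ = MvPolynomial.X i := by
    rw [← h1, AlgEquiv.symm_apply_apply]
  show (MvPolynomial.aeval c) (ht.aevalEquiv.symm ⟨t i, hti⟩) = c i
  rw [h2, MvPolynomial.aeval_X]

/-- Weak Nullstellensatz: a nontrivial algebra of finite type over an algebraically closed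
field `K` has a `K`-point. -/
theorem exists_algHom_of_finiteType [IsAlgClosed K] (B : Type*) [CommRing B] [Algebra K B]
    [Nontrivial B] [Algebra.FiniteType K B] : Nonempty (B →ₐ[K] K) := by
  obtain ⟨M, hM⟩ := Ideal.exists_maximal B
  letI : Field (B ⧸ M) := Ideal.Quotient.field M
  haveI : Algebra.FiniteType K (B ⧸ M) :=
    Algebra.FiniteType.of_surjective (Ideal.Quotient.mkₐ K M) Ideal.Quotient.mk_surjective
  haveI : Module.Finite K (B ⧸ M) := finite_of_finite_type_of_isJacobsonRing _ _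
  haveI : Algebra.IsAlgebraic K (B ⧸ M) := Algebra.IsAlgebraic.of_finite _ _
  haveI : Module.IsTorsionFree K (B ⧸ M) := DivisionSemiring.to_moduleIsTorsionFree
  let ψ : (B ⧸ M) →ₐ[K] K := IsAlgClosed.lift
  exact ⟨ψ.comp (Ideal.Quotient.mkₐ K M)⟩

/-- Unit-avoiding places: finitely many nonzero elements of `Ω` are simultaneously units of
some `K`-place (their residues are nonzero). -/
theorem exists_isKPlace_units [IsAlgClosed K] (s : Finset Ω) (hs : ∀ x ∈ s, x ≠ 0) :
    ∃ (V : ValuationSubring Ω) (π : V →+* K), IsKPlace K V π ∧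
      ∀ x ∈ s, ∃ h : x ∈ V, π ⟨x, h⟩ ≠ 0 := by
  classical
  let T : Finset Ω := s ∪ s.image (fun x => x⁻¹)
  let B : Subalgebra K Ω := Algebra.adjoin K (T : Set Ω)
  haveI : Algebra.FiniteType K B :=
    (Subalgebra.fg_iff_finiteType _).mp (Subalgebra.fg_adjoin_finset T)
  obtain ⟨φ⟩ := exists_algHom_of_finiteType (K := K) B
  obtain ⟨V, π, hK, hext⟩ := exists_isKPlace_extends B φ
  refine ⟨V, π, hK, fun x hx => ?_⟩
  have hxB : x ∈ B := Algebra.subset_adjoin (by
    simp only [T, Finset.coe_union, Set.mem_union, Finset.mem_coe]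
    exact Or.inl hx)
  have hxiB : x⁻¹ ∈ B := Algebra.subset_adjoin (by
    simp only [T, Finset.coe_union, Set.mem_union, Finset.mem_coe, Finset.mem_image]
    exact Or.inr ⟨x, hx, rfl⟩)
  obtain ⟨h, hφ⟩ := hext ⟨x, hxB⟩
  refine ⟨h, ?_⟩
  rw [hφ]
  intro h0
  have hmul : (⟨x, hxB⟩ : B) * ⟨x⁻¹, hxiB⟩ = 1 := Subtype.ext (mul_inv_cancel₀ (hs x hx))
  have := congrArg φ hmul
  rw [map_mul, h0, zero_mul, map_one] at this
  exact zero_ne_one this

end KPlace

end Fermat.Agent.S17.H377
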