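import Fermat.Agent.S17.GDiv.Assembly
import Fermat.Agent.S17.H871.ZRat
import Fermat.Agent.S17.H917.CoreRig
import Fermat.Agent.S17.H711.Der
import Fermat.Agent.S17.H137.DerWrap
import Fermat.Agent.S17.H200.Plext
import Fermat.Agent.S17.H830.NSMain
import Fermat.Agent.S17.H137.Gen
import Fermat.Agent.S17.H560.GenStab
import Fermat.Agent.S17.H20.TransStmt

/-!
# S17 / G-DIV: the final theorem (helper377)

`divisible : ∀ n ≠ 0, ∀ x : J₀(N)(ℚ̄), ∃ y, n • y = x`  — the EXACT statement `divisible` of the
row skeleton (`S17/Skeleton.lean`), unconditional.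

Wiring of the landed pieces of the algebraic line (architect helper797, ending helper20),
for `L = ℂ`:

* BC, ZRAT, CUSPRAT, `ff1_FL` : helper871;   * CORE, RIG : helper917;   * DER : helper711
  (DER-a helper770, DER-b helper711);   * DEREX, DPRES, GEN : helper137;   * PLEXT : helper200;
* NS : helper830;   * GENSTAB : helper560;   * TRANS : helper20;   * assembly `divisible_of`.

Here: the image of `ℚ̄` in `L` is countable and algebraically closed in `L`; `ℂ` is uncountable.
-/

set_option autoImplicit false

noncomputable section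

open AlgebraicCurve ModularCurve

namespace Fermat.Agent.S17.H377

open Fermat.Agent.Lib.RR Fermat.Agent.S17.GDiv

/-- `ℚ̄` is countable. -/
theorem countable_Qb : Countable Qb := by
  have halg : Algebra.IsAlgebraic ℚ Qb := AlgebraicClosure.isAlgebraic ℚ
  have h := Algebra.IsAlgebraic.cardinalMk_le_max ℚ Qb
  rw [Cardinal.mk_eq_aleph0 ℚ, max_self] at h
  exact Cardinal.mk_le_aleph0_iff.mp h

section Image

variable (L : Type) [Field L] [Algebra Qb L]

/-- The image of `ℚ̄` in `L` is countable. -/
theorem kL_countable : (kL L : Set L).Countable := by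
  have := countable_Qb
  have h : (kL L : Set L) = Set.range (algebraMap Qb L) := by
    ext x
    simp [kL]
  rw [h]
  exact Set.countable_range _

/-- The image of `ℚ̄` in `L` is algebraically closed in `L`. -/
theorem kL_algClosedIn : AlgClosedIn (kL L) := by
  intro x hx
  -- `x` is algebraic over `ℚ̄`
  have hx' : IsAlgebraic Qb x := by
    obtain ⟨p, hp0, hp⟩ := hx
    -- lift the coefficients
    have hlift : ∀ a : kL L, ∃ b : Qb, algebraMap Qb L b = (a : L) := fun a => by
      obtain ⟨b, hb⟩ := a.2
      exact ⟨b, hb⟩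
    choose s hs using hlift
    let q : Polynomial Qb := ∑ i ∈ Finset.range (p.natDegree + 1), Polynomial.monomial i (s (p.coeff i))
    have hq : Polynomial.aeval x q = 0 := by
      have h1 : Polynomial.aeval x p = ∑ i ∈ Finset.range (p.natDegree + 1),
          ((p.coeff i : kL L) : L) * x ^ i := by
        rw [Polynomial.aeval_eq_sum_range]
        refine Finset.sum_congr rfl fun i _ => ?_
        rw [Algebra.smul_def]
        rfl
      have h2 : Polynomial.aeval x q = ∑ i ∈ Finset.range (p.natDegree + 1),
          ((p.coeff i : kL L) : L) * x ^ i := by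
        simp only [q, map_sum, Polynomial.aeval_monomial, hs]
      rw [h2, ← h1, hp]
    have hq0 : q ≠ 0 := by
      intro h0
      apply hp0
      refine Polynomial.ext fun i => ?_
      have hc : q.coeff i = if i < p.natDegree + 1 then s (p.coeff i) else 0 := by
        simp only [q, Polynomial.finsetSum_coeff, Polynomial.coeff_monomial]
        rw [Finset.sum_ite_eq' (Finset.range (p.natDegree + 1)) i]
        simp [Finset.mem_range]
      rw [h0, Polynomial.coeff_zero] at hc
      by_cases hi : i < p.natDegree + 1
      · rw [if_pos hi] at hc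
        have h5 : ((p.coeff i : kL L) : L) = 0 := by
          rw [← hs (p.coeff i), ← hc, map_zero]
        rw [Polynomial.coeff_zero]
        exact_mod_cast h5
      · rw [Polynomial.coeff_zero]
        exact Polynomial.coeff_eq_zero_of_natDegree_lt (p := p) (n := i) (by omega)
    exact ⟨q, hq0, hq⟩
  have hint : IsIntegral Qb x := hx'.isIntegral
  have hdeg : (minpoly Qb x).degree = 1 :=
    IsAlgClosed.degree_eq_one_of_irreducible Qb (minpoly.irreducible hint)
  obtain ⟨b, hb⟩ := minpoly.mem_range_of_degree_eq_one Qb x hdeg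
  exact ⟨b, hb⟩

end Image

/-- `ℂ` is uncountable. -/
theorem uncountable_complex : Uncountable ℂ := by
  rw [← Cardinal.aleph0_lt_mk_iff, Cardinal.mk_complex]
  exact Cardinal.aleph0_lt_continuum

section Field

/-- **G-DIV** through any uncountable algebraically closed field `L` of characteristic zero. -/
theorem divisible_of_field (N : ℕ) [NeZero N] (L : Type) [Field L] [Algebra ℚ L] [IsAlgClosed L]
    [Uncountable L] (n : ℕ) (hn : n ≠ 0) (x : JZero N) : ∃ y : JZero N, n • y = x := by
  have hff : FF1 L (FL N L) := Fermat.Agent.S17.H871.ff1_FL N L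
  let _ : Algebra Qb L := Fermat.Agent.S17.H871.algebraQb L
  have hZRAT : StmtZRAT N L := Fermat.Agent.S17.H871.stmtZRAT N L
  have hCUSP : StmtCUSPRAT N L := Fermat.Agent.S17.H871.stmtCUSPRAT N L
  have hPLEXT : StmtPLEXT N L := Fermat.Agent.S17.H200.stmtPLEXT
  have hDER : StmtDER N L := Fermat.Agent.S17.H711.stmtDER N L
  have hCORE : StmtCORE N L :=
    Fermat.Agent.S17.H917.stmtCORE hDER (Fermat.Agent.S17.H137.stmtDEREX L)
      (Fermat.Agent.S17.H137.stmtDPRES N L)
  have hRIG : StmtRIG N L := Fermat.Agent.S17.H917.stmtRIG hCORE hZRAT hCUSP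
  have hNS : StmtNS N L := Fermat.Agent.S17.H830.stmtNS hPLEXT
  have hGEN : StmtGEN N L := Fermat.Agent.S17.H137.stmtGEN N L
  have hSTAB : StmtGENSTAB N L := Fermat.Agent.S17.H560.stmtGENSTAB hRIG hCUSP hZRAT
  have hTRANS : StmtTRANS N L := Fermat.Agent.S17.H20.stmtTRANS hPLEXT hZRAT
  have hBC : StmtBC N L := Fermat.Agent.S17.H871.stmtBC N L
  exact divisible_of N L (kL_countable L) (kL_algClosedIn L) hBC hRIG hNS hGEN hSTAB hTRANS n hn x

end Field

/-- **G-DIV.**  `J₀(N)(ℚ̄)` is divisible (exact statement `divisible` of the row skeleton). -/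
theorem divisible (N : ℕ) [NeZero N] (n : ℕ) (hn : n ≠ 0) (x : JZero N) :
    ∃ y : JZero N, n • y = x :=
  have := uncountable_complex
  divisible_of_field N ℂ n hn x

end Fermat.Agent.S17.H377
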