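import Fermat.Agent.Lib.RR.Duality

/-!
# Non-speciality lemmas (helper377, S17 / G-DIV piece NS, abstract Riemann–Roch part)

For a function field `[FF1 K F]`:

* `IsCanonical W` : `W` satisfies the Riemann–Roch formula;
* `IsCanonical.of_degree_of_ell` : `deg W' = 2g - 2`, `ℓ(W') ≥ g` characterise canonical divisors
  (so the base change of a canonical divisor is canonical);
* `IsCanonical.ell_add_prim_eq` : if some `h ∈ L(W - D)` has exact order `-(W - D)(P)` at `P`,
  then `ℓ(D + P) = ℓ(D)`  (adding a point which is not a base point of `|W - D|`);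
* `finite_exceptional` : for `ℓ(W - D) > 0`, all but finitely many `P` have `ℓ(D + P) = ℓ(D)`.
-/

set_option autoImplicit false

noncomputable section

open AlgebraicCurve

namespace Fermat.Agent.S17.H377

open Fermat.Agent.Lib.RR

variable {K F : Type*} [Field K] [Field F] [Algebra K F]

/-- `W` satisfies the Riemann–Roch formula. -/
def IsCanonical [FF1 K F] (W : Divisor K F) : Prop :=
  ∀ D : Divisor K F,
    (ell D : ℤ) = Divisor.degree D + 1 - (genusFF K F : ℤ) + ell (W - D)

theorem exists_isCanonical [FF1 K F] : ∃ W : Divisor K F, IsCanonical W := by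
  obtain ⟨W, -, -, hRR⟩ := riemann_roch (K := K) (F := F)
  exact ⟨W, hRR⟩

variable [FF1 K F]

theorem IsCanonical.ell_self {W : Divisor K F} (hW : IsCanonical W) :
    ell W = genusFF K F := by
  have h0 := hW 0
  rw [ell_zero, map_zero, sub_zero] at h0
  have : (ell W : ℤ) = genusFF K F := by push_cast at h0; omega
  exact_mod_cast this

theorem IsCanonical.degree {W : Divisor K F} (hW : IsCanonical W) :
    Divisor.degree W = 2 * (genusFF K F : ℤ) - 2 := by
  have h1 := hW W
  rw [sub_self, ell_zero, hW.ell_self] at h1
  push_cast at h1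
  omega

/-- A nonzero element of `L(D)` with `deg D = 0` has divisor `-D`. -/
theorem divOf_eq_neg_of_mem_L {D : Divisor K F} (hD : Divisor.degree D = 0) {f : F}
    (hf : f ≠ 0) (hmem : f ∈ riemannRochSpace D) : divOf (K := K) f hf = -D := by
  have hnn : 0 ≤ divOf (K := K) f hf + D := by
    rw [Finsupp.le_def]
    intro v
    have := (mem_L_iff.mp hmem v).resolve_left hf
    simp only [Finsupp.coe_zero, Pi.zero_apply, Finsupp.coe_add, Pi.add_apply, divOf_apply]
    omega
  have hdeg : Divisor.degree (divOf (K := K) f hf + D) = 0 := by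
    rw [map_add, degree_divOf, hD, add_zero]
  have hzero : divOf (K := K) f hf + D = 0 := by
    ext v
    have hv : 0 ≤ (divOf (K := K) f hf + D) v := by
      simpa using Finsupp.le_def.mp hnn v
    by_contra hne
    have hpos : 0 < (divOf (K := K) f hf + D) v := lt_of_le_of_ne hv (Ne.symm hne)
    have hle : prim v ≤ divOf (K := K) f hf + D := by
      rw [Finsupp.le_def]
      intro w
      by_cases hw : w = v
      · subst hw
        rw [prim_apply_self]
        omega
      · rw [prim_apply_of_ne hw]
        simpa using Finsupp.le_def.mp hnn w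
    have := degree_mono hle
    rw [degree_prim', hdeg] at this
    omega
  exact eq_neg_of_add_eq_zero_left hzero

/-- Canonical divisors are characterised by `deg = 2g - 2` and `ℓ ≥ g`. -/
theorem IsCanonical.of_degree_of_ell {W W' : Divisor K F} (hW : IsCanonical W)
    (hdeg : Divisor.degree W' = 2 * (genusFF K F : ℤ) - 2) (hell : genusFF K F ≤ ell W') :
    IsCanonical W' := by
  have h1 := hW W'
  rw [hdeg] at h1
  have hpos : 0 < ell (W - W') := by
    have : (genusFF K F : ℤ) ≤ ell W' := by exact_mod_cast hell
    have h2 : (0 : ℤ) < ell (W - W') := by omega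
    exact_mod_cast h2
  have hne : riemannRochSpace (W - W') ≠ ⊥ := by
    intro h
    unfold ell at hpos
    rw [h, finrank_bot] at hpos
    exact lt_irrefl _ hpos
  obtain ⟨f, hfmem, hf0⟩ := Submodule.exists_mem_ne_zero_of_ne_bot hne
  have hd0 : Divisor.degree (W - W') = 0 := by
    rw [map_sub, hW.degree, hdeg, sub_self]
  have hdiv := divOf_eq_neg_of_mem_L hd0 hf0 hfmem
  have hW' : W' = W + divOf (K := K) f hf0 := by
    rw [hdiv]; abel
  intro D
  have h3 := hW D
  have h4 : ell (W' - D) = ell (W - D) := by
    rw [hW', show W + divOf (K := K) f hf0 - D = (W - D) + divOf (K := K) f hf0 by abel,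
      ell_add_divOf]
  rw [h4]
  exact h3

/-- If `h ∈ L(E)` has exact order `-E(P)` at `P`, then `ℓ(E - P) < ℓ(E)`. -/
theorem ell_sub_prim_lt {E : Divisor K F} {P : Place K F} {h : F} (hh : h ≠ 0)
    (hmem : h ∈ riemannRochSpace E) (hP : P.ord h = -E P) :
    ell (E - prim P) < ell E := by
  have hle : riemannRochSpace (E - prim P) ≤ riemannRochSpace E :=
    L_mono (by
      rw [Finsupp.le_def]
      intro v
      by_cases hv : v = P
      · subst hv
        simp
      · simp [prim_apply_of_ne hv])
  have hnot : h ∉ riemannRochSpace (E - prim P) := by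
    intro hm
    have := (mem_L_iff.mp hm P).resolve_left hh
    simp only [Finsupp.coe_sub, Pi.sub_apply, prim_apply_self] at this
    omega
  have hlt : riemannRochSpace (E - prim P) < riemannRochSpace E :=
    lt_of_le_of_ne hle (fun heq => hnot (heq ▸ hmem))
  exact Submodule.finrank_lt_finrank_of_lt hlt

/-- Adding a point `P` which is not a base point of `|W - D|` does not change `ℓ(D)`. -/
theorem IsCanonical.ell_add_prim_eq {W : Divisor K F} (hW : IsCanonical W) (D : Divisor K F)
    (P : Place K F) {h : F} (hh : h ≠ 0) (hmem : h ∈ riemannRochSpace (W - D))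
    (hP : P.ord h = -(W - D) P) : ell (D + prim P) = ell D := by
  have hlt := ell_sub_prim_lt hh hmem hP
  have h1 := hW D
  have h2 := hW (D + prim P)
  rw [map_add, degree_prim', show W - (D + prim P) = W - D - prim P by abel] at h2
  have h3 := ell_add_prim_le (W - D - prim P) P
  rw [sub_add_cancel] at h3
  have h4 : ell D ≤ ell (D + prim P) := ell_mono (by
    rw [Finsupp.le_def]
    intro v
    by_cases hv : v = P
    · subst hv
      simp
    · simp [prim_apply_of_ne hv])
  omega

/-- For `ℓ(W - D) > 0`, all but finitely many places `P` satisfy `ℓ(D + P) = ℓ(D)`. -/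
theorem IsCanonical.finite_exceptional {W : Divisor K F} (hW : IsCanonical W) (D : Divisor K F)
    (hpos : 0 < ell (W - D)) : {P : Place K F | ell (D + prim P) ≠ ell D}.Finite := by
  have hne : riemannRochSpace (W - D) ≠ ⊥ := by
    intro h
    unfold ell at hpos
    rw [h, finrank_bot] at hpos
    exact lt_irrefl _ hpos
  obtain ⟨f, hfmem, hf0⟩ := Submodule.exists_mem_ne_zero_of_ne_bot hne
  refine (Finsupp.hasFiniteSupport (divOf (K := K) f hf0 + (W - D))).subset ?_
  intro P hP
  simp only [Set.mem_ofPred_eq] at hP
  rw [Function.mem_support]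
  intro h0
  apply hP
  refine hW.ell_add_prim_eq D P hf0 hfmem ?_
  simp only [Finsupp.coe_add, Pi.add_apply, divOf_apply] at h0
  omega

/-- The index of speciality of an effective divisor of degree `< g` with `ℓ = 1` is positive. -/
theorem IsCanonical.ell_sub_pos {W : Divisor K F} (hW : IsCanonical W) {D : Divisor K F}
    (hell : 1 ≤ ell D) (hdeg : Divisor.degree D < genusFF K F) : 0 < ell (W - D) := by
  have h1 := hW D
  have : (1 : ℤ) ≤ ell D := by exact_mod_cast hell
  have h2 : (0 : ℤ) < ell (W - D) := by omega
  exact_mod_cast h2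

end Fermat.Agent.S17.H377
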