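import Fermat.Agent.S17.GDiv.Defs
import Fermat.Agent.S17.H377.NonSpecial
import Fermat.Agent.S29.H32.AutOrbit

/-!
# S17 / G-DIV piece NS (helper377): generic points are non-special

`stmtNS : StmtPLEXT N L → StmtZRAT N L → StmtNS N L`.

Route.  `W` a canonical divisor, `K₀` := algebraic closure in `L` of `K(tval P : P ∈ supp W)`.
For a tuple `P` generic over `K₀` we show `ℓ(P₁ + … + P_i) = 1` by induction on `i ≤ g`:
`E := W − (P₁ + … + P_i)` is rational over `K_i` := algebraic closure of `K₀(tval P_j, j ≤ i)`
(ZRAT), hence fixed by `Aut(L/K_i)` (PLEXT); `L(E) ≠ 0` (Riemann–Roch); a nonzero `h ∈ L(E)` has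
finitely many zeros, the orbit of `P_{i+1}` under `Aut(L/K_i)` is infinite, so some conjugate
of `h` has exact order `−E(P_{i+1})` at `P_{i+1}`, and `ℓ(D + P_{i+1}) = ℓ(D)`
(`IsCanonical.ell_add_prim_eq`).
-/

set_option autoImplicit false
set_option linter.unusedSectionVars false
set_option linter.style.haveILetI false

noncomputable section

open AlgebraicCurve ModularCurve

namespace Fermat.Agent.S17.H377

open Fermat.Agent.Lib.RR Fermat.Agent.S17.H680 Fermat.Agent.S17.GDiv

section Values

variable {N : ℕ} [NeZero N] {L : Type} [Field L] [Algebra ℚ L]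

/-- Values are unique. -/
theorem hasValue_unique {P : Place L (FL N L)} {f : FL N L} {c c' : L}
    (h : HasValue P f c) (h' : HasValue P f c') : c = c' := by
  by_contra hne
  have h1 : (f - algebraMap L (FL N L) c) = 0 ∨ 1 ≤ P.ord (f - algebraMap L (FL N L) c) := by
    rcases h with h | h
    · exact Or.inl h
    · exact Or.inr h
  have h2 : -(f - algebraMap L (FL N L) c') = 0 ∨
      1 ≤ P.ord (-(f - algebraMap L (FL N L) c')) := by
    rcases h' with h | h
    · exact Or.inl (by rw [h, neg_zero])
    · right; rw [ord_neg]; exact h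
  have h3 := ord_add_of_le P h1 h2
  have h4 : (f - algebraMap L (FL N L) c) + -(f - algebraMap L (FL N L) c')
      = algebraMap L (FL N L) (c' - c) := by
    rw [map_sub]; ring
  rw [h4, ord_algebraMap] at h3
  rcases h3 with h3 | h3
  · have : c' - c = 0 := by
      have hinj := (algebraMap L (FL N L)).injective
      exact hinj (by rw [h3, map_zero])
    exact hne (sub_eq_zero.mp this).symm
  · omega

theorem tval_eq {P : Place L (FL N L)} {c : L} (h : HasValue P (tL N L) c) : tval P = c := by
  have hex : ∃ c : L, HasValue P (tL N L) c := ⟨c, h⟩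
  unfold tval
  rw [dif_pos hex]
  exact hasValue_unique hex.choose_spec h

theorem hasValue_tval {P : Place L (FL N L)} (h : ∃ c : L, HasValue P (tL N L) c) :
    HasValue P (tL N L) (tval P) := by
  obtain ⟨c, hc⟩ := h
  rw [tval_eq hc]
  exact hc

/-- The Galois action on functions with rational `q`-expansion is trivial. -/
theorem galois_smul_bcQ (σ : L ≃ₐ[ℚ] L) (u : modularFunctionFieldFull N) :
    arithmeticGalois (modularFunctionFieldFull N) σ • bcQ N L u = bcQ N L u := by
  apply Subtype.ext
  rw [coe_arithmeticGalois_smul, coe_bcQ]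
  exact coeffMap_coeffEmb σ _

theorem galois_smul_algebraMap (σ : L ≃ₐ[ℚ] L) (c : L) :
    arithmeticGalois (modularFunctionFieldFull N) σ • algebraMap L (FL N L) c
      = algebraMap L (FL N L) (σ c) :=
  arithmeticRingAut_algebraMap _ σ c

/-- Galois equivariance of values. -/
theorem HasValue.galois_smul {P : Place L (FL N L)} {u : modularFunctionFieldFull N} {c : L}
    (h : HasValue P (bcQ N L u) c) (σ : L ≃ₐ[ℚ] L) :
    HasValue (arithmeticGalois (modularFunctionFieldFull N) σ • P) (bcQ N L u) (σ c) := by
  have key : arithmeticGalois (modularFunctionFieldFull N) σ •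
      (bcQ N L u - algebraMap L (FL N L) c) = bcQ N L u - algebraMap L (FL N L) (σ c) := by
    rw [smul_sub, galois_smul_bcQ, galois_smul_algebraMap]
  unfold HasValue VanishesAt at h ⊢
  rcases h with h | h
  · left
    rw [← key, h, smul_zero]
  · right
    rw [← key, SemilinearAut.ord_smul]
    exact h

/-- A place rational over `K₁` is fixed by the automorphisms fixing `K₁` (from PLEXT). -/
theorem galois_smul_eq_of_isRationalOver (hPLEXT : StmtPLEXT N L) {K₁ : Subfield L}
    {P : Place L (FL N L)} (hP : IsRationalOver K₁ P) (σ : L ≃ₐ[ℚ] L)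
    (hσ : ∀ a ∈ K₁, σ a = a) :
    arithmeticGalois (modularFunctionFieldFull N) σ • P = P := by
  symm
  apply hPLEXT
  intro u c hc
  have := HasValue.galois_smul hc σ
  rwa [hσ c (hP u c hc)] at this

end Values

section Rational

variable {N : ℕ} [NeZero N] {L : Type} [Field L] [Algebra ℚ L]

theorem algebraMap_rat_mem (K₁ : Subfield L) (q : ℚ) : algebraMap ℚ L q ∈ K₁ := by
  rw [eq_ratCast]
  exact SubfieldClass.ratCast_mem K₁ q

/-- `t = j` has coefficients in every subfield. -/
theorem coeffsIn_tL (K₁ : Subfield L) : CoeffsIn K₁ (tL N L) := by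
  intro m
  show (coeffEmb L jq).coeff m ∈ K₁
  rw [coeffEmb_coeff]
  exact algebraMap_rat_mem K₁ _

theorem coe_algebraMap_FL (c : L) :
    ((algebraMap L (FL N L) c : FL N L) : LaurentSeries L) = HahnSeries.single 0 c := by
  rw [← algebraMap_laurentSeries_eq_single]
  rfl

theorem coeffsIn_tL_sub (K₁ : Subfield L) {c : L} (hc : c ∈ K₁) :
    CoeffsIn K₁ (tL N L - algebraMap L (FL N L) c) := by
  intro m
  have h1 : (((tL N L - algebraMap L (FL N L) c : FL N L)) : LaurentSeries L).coeff m
      = ((tL N L : FL N L) : LaurentSeries L).coeff m - (HahnSeries.single 0 c).coeff m := by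
    rw [← coe_algebraMap_FL (N := N)]
    rfl
  rw [h1]
  refine K₁.sub_mem (coeffsIn_tL K₁ m) ?_
  by_cases hm : m = 0
  · subst hm
    rw [HahnSeries.coeff_single_same]
    exact hc
  · rw [HahnSeries.coeff_single_of_ne hm]
    exact K₁.zero_mem

theorem tL_sub_ne_zero (c : L) : tL N L - algebraMap L (FL N L) c ≠ 0 := by
  intro h
  have h1 : (((tL N L - algebraMap L (FL N L) c : FL N L)) : LaurentSeries L).coeff (-1)
      = ((tL N L : FL N L) : LaurentSeries L).coeff (-1) - (HahnSeries.single 0 c).coeff (-1) := by
    rw [← coe_algebraMap_FL (N := N)]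
    rfl
  rw [h] at h1
  have h2 : ((tL N L : FL N L) : LaurentSeries L).coeff (-1) = 1 := by
    show (coeffEmb L jq).coeff (-1) = 1
    rw [coeffEmb_coeff, coeff_jq_neg_one, map_one]
  rw [h2, HahnSeries.coeff_single_of_ne (by norm_num)] at h1
  simp at h1

theorem tL_ne_zero : tL N L ≠ 0 := by
  have := tL_sub_ne_zero (N := N) (L := L) 0
  rwa [map_zero, sub_zero] at this

variable [FF1 L (FL N L)]

/-- A place where `t` takes a value in `K₁` is rational over `K₁` (from ZRAT). -/
theorem isRationalOver_of_hasValue (hZRAT : StmtZRAT N L) {K₁ : Subfield L}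
    (hK₁ : AlgClosedIn K₁) {P : Place L (FL N L)} {c : L} (h : HasValue P (tL N L) c)
    (hc : c ∈ K₁) : IsRationalOver K₁ P := by
  refine hZRAT K₁ hK₁ _ (coeffsIn_tL_sub K₁ hc) P ?_
  rcases h with h | h
  · exact absurd h (tL_sub_ne_zero c)
  · exact ne_of_gt h

/-- A pole of `t` is rational over every `K₁` (from ZRAT). -/
theorem isRationalOver_of_not_hasValue (hZRAT : StmtZRAT N L) {K₁ : Subfield L}
    (hK₁ : AlgClosedIn K₁) {P : Place L (FL N L)} (h : ¬ ∃ c : L, HasValue P (tL N L) c) :
    IsRationalOver K₁ P := by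
  refine hZRAT K₁ hK₁ _ (coeffsIn_tL K₁) P ?_
  intro h0
  apply h
  exact exists_const_sub P (deg_eq_one P) (le_of_eq h0.symm)

/-- A place is rational over `K₁` as soon as `tval P ∈ K₁`. -/
theorem isRationalOver_of_tval_mem (hZRAT : StmtZRAT N L) {K₁ : Subfield L}
    (hK₁ : AlgClosedIn K₁) {P : Place L (FL N L)} (h : tval P ∈ K₁) :
    IsRationalOver K₁ P := by
  by_cases hex : ∃ c : L, HasValue P (tL N L) c
  · exact isRationalOver_of_hasValue hZRAT hK₁ (hasValue_tval hex) h
  · exact isRationalOver_of_not_hasValue hZRAT hK₁ hex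

end Rational

section RelClosure

variable {L : Type} [Field L]

/-- The relative algebraic closure in `L` of `K(S)`. -/
def genClosure (K : Subfield L) (S : Set L) : Subfield L :=
  (algebraicClosure (IntermediateField.adjoin K S) L).toSubfield

theorem mem_genClosure {K : Subfield L} {S : Set L} {x : L} :
    x ∈ genClosure K S ↔ IsAlgebraic (IntermediateField.adjoin K S) x :=
  mem_algebraicClosure_iff

theorem le_genClosure (K : Subfield L) (S : Set L) : K ≤ genClosure K S := fun x hx =>
  mem_genClosure.mpr (isAlgebraic_algebraMap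
    (⟨x, (IntermediateField.adjoin K S).algebraMap_mem ⟨x, hx⟩⟩ : IntermediateField.adjoin K S))

theorem subset_genClosure (K : Subfield L) (S : Set L) : S ⊆ genClosure K S := fun x hx =>
  mem_genClosure.mpr (isAlgebraic_algebraMap
    (⟨x, IntermediateField.subset_adjoin K S hx⟩ : IntermediateField.adjoin K S))

theorem algClosedIn_genClosure (K : Subfield L) (S : Set L) : AlgClosedIn (genClosure K S) := by
  intro x hx
  rw [mem_genClosure]
  have h1 : IsAlgebraic (algebraicClosure (IntermediateField.adjoin K S) L) x := hx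
  exact IsAlgebraic.restrictScalars (R := IntermediateField.adjoin K S)
    (S := algebraicClosure (IntermediateField.adjoin K S) L) h1

theorem countable_closure {s : Set L} (hs : s.Countable) :
    (Subfield.closure s : Set L).Countable := by
  rw [← Cardinal.le_aleph0_iff_set_countable]
  refine (Subfield.cardinalMk_closure_le_max s).trans ?_
  rw [max_le_iff]
  exact ⟨Cardinal.le_aleph0_iff_set_countable.mpr hs, le_rfl⟩

theorem countable_adjoin {K : Subfield L} (hK : (K : Set L).Countable) {S : Set L}
    (hS : S.Countable) : ((IntermediateField.adjoin K S : IntermediateField K L) : Set L).Countable := by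
  have h1 : ((IntermediateField.adjoin K S : IntermediateField K L) : Set L)
      = (Subfield.closure (Set.range (algebraMap K L) ∪ S) : Set L) := rfl
  rw [h1]
  apply countable_closure
  refine Set.Countable.union ?_ hS
  have : Set.range (algebraMap K L) = (K : Set L) := by
    ext x
    constructor
    · rintro ⟨y, rfl⟩
      exact y.2
    · intro hx
      exact ⟨⟨x, hx⟩, rfl⟩
  rw [this]
  exact hK

theorem countable_genClosure {K : Subfield L} (hK : (K : Set L).Countable) {S : Set L}
    (hS : S.Countable) : (genClosure K S : Set L).Countable := by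
  haveI : Countable (IntermediateField.adjoin K S) := (countable_adjoin hK hS).to_subtype
  haveI : Module.IsTorsionFree (IntermediateField.adjoin K S) L :=
    DivisionSemiring.to_moduleIsTorsionFree
  have := Algebraic.countable (IntermediateField.adjoin K S) L
  refine this.mono ?_
  intro x hx
  exact mem_genClosure.mp hx

/-- Algebraically independent elements stay transcendental over the relative algebraic closure
of the field generated by the others. -/
theorem transcendental_genClosure {K : Subfield L} {ι : Type*} {τ : ι → L}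
    (hτ : AlgebraicIndependent K τ) {s : Set ι} {i : ι} (hi : i ∉ s) :
    Transcendental (genClosure K (τ '' s)) (τ i) := by
  have h1 := hτ.transcendental_adjoin hi
  have h2 : Transcendental (IntermediateField.adjoin K (τ '' s)) (τ i) :=
    IntermediateField.transcendental_adjoin_iff.mpr h1
  exact h2.algebraicClosure

end RelClosure

section Step

variable {N : ℕ} [NeZero N] {L : Type} [Field L] [Algebra ℚ L] [IsAlgClosed L] [CharZero L]
  [FF1 L (FL N L)]

/-- A divisor all of whose places are fixed by `g` is fixed by `g`. -/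
theorem smul_divisor_eq_self (g : SemilinearAut L (FL N L)) (E : Divisor L (FL N L))
    (h : ∀ Q ∈ E.support, g • Q = Q) : g • E = E := by
  ext w
  rw [SemilinearAut.divisor_smul_apply]
  by_cases hw : w ∈ E.support
  · have : g⁻¹ • w = w := by
      conv_lhs => rw [← h w hw]
      rw [inv_smul_smul]
    rw [this]
  · by_cases hw' : g⁻¹ • w ∈ E.support
    · have h1 := h _ hw'
      rw [smul_inv_smul] at h1
      rw [← h1] at hw'
      exact absurd hw' hw
    · rw [Finsupp.notMem_support_iff.mp hw, Finsupp.notMem_support_iff.mp hw']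

/-- An automorphism of `L` over a subfield, as a `ℚ`-algebra automorphism. -/
def ratAut {K₁ : Subfield L} (σ : L ≃ₐ[K₁] L) : L ≃ₐ[ℚ] L :=
  AlgEquiv.ofRingEquiv (f := σ.toRingEquiv) (fun q => by
    show σ (algebraMap ℚ L q) = algebraMap ℚ L q
    rw [eq_ratCast, map_ratCast])

@[simp] theorem ratAut_apply {K₁ : Subfield L} (σ : L ≃ₐ[K₁] L) (x : L) :
    ratAut σ x = σ x := rfl

theorem ratAut_fixes {K₁ : Subfield L} (σ : L ≃ₐ[K₁] L) (a : L) (ha : a ∈ K₁) :
    ratAut σ a = a :=
  σ.commutes ⟨a, ha⟩

/-- The orbit of a place with transcendental `t`-value under `Aut(L/K₁)` is infinite: some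
conjugate avoids any given finite set of places. -/
theorem exists_galois_smul_notMem (K₁ : Subfield L) (P : Place L (FL N L))
    (hP : ∃ c : L, HasValue P (tL N L) c) (htr : Transcendental K₁ (tval P))
    (B : Finset (Place L (FL N L))) :
    ∃ ρ : L ≃ₐ[ℚ] L, (∀ a ∈ K₁, ρ a = a) ∧
      arithmeticGalois (modularFunctionFieldFull N) ρ • P ∉ B := by
  classical
  have hσ : ∀ n : ℕ, ∃ ρ : L ≃ₐ[ℚ] L, (∀ a ∈ K₁, ρ a = a) ∧ ρ (tval P) = tval P + (n : L) := by
    intro n
    obtain ⟨σ, hσ⟩ := Fermat.Agent.S29.H32.exists_algEquiv_apply_eq_add (tval P) htr (n : K₁)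
    refine ⟨ratAut σ, fun a ha => ratAut_fixes σ a ha, ?_⟩
    rw [ratAut_apply, hσ]
    congr 1
  choose ρ hρfix hρ using hσ
  have hval : ∀ n : ℕ, HasValue (arithmeticGalois (modularFunctionFieldFull N) (ρ n) • P)
      (tL N L) (tval P + (n : L)) := by
    intro n
    have h1 := HasValue.galois_smul (u := jQ N) (hasValue_tval hP) (ρ n)
    rw [hρ n] at h1
    exact h1
  have hinj : Function.Injective
      fun n : ℕ => arithmeticGalois (modularFunctionFieldFull N) (ρ n) • P := by
    intro n m hnm
    have h1 := hval n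
    have h2 := hval m
    have hnm' : arithmeticGalois (modularFunctionFieldFull N) (ρ n) • P
        = arithmeticGalois (modularFunctionFieldFull N) (ρ m) • P := hnm
    rw [hnm'] at h1
    have h3 := hasValue_unique h1 h2
    have h4 : (n : L) = (m : L) := add_left_cancel h3
    exact Nat.cast_injective h4
  have hfin : ((fun n : ℕ => arithmeticGalois (modularFunctionFieldFull N) (ρ n) • P) ⁻¹'
      (B : Set (Place L (FL N L)))).Finite :=
    Set.Finite.preimage hinj.injOn (Finset.finite_toSet _)
  obtain ⟨n, hn⟩ := hfin.exists_notMem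
  exact ⟨ρ n, hρfix n, hn⟩

/-- **Key step.**  If `W − D` is rational over `K₁`, `L(W − D) ≠ 0` and `P` is a place whose
`t`-value is transcendental over `K₁`, then `ℓ(D + P) = ℓ(D)`. -/
theorem ell_add_prim_of_transcendental (hPLEXT : StmtPLEXT N L) {W : Divisor L (FL N L)}
    (hW : IsCanonical W) (K₁ : Subfield L) (D : Divisor L (FL N L))
    (hrat : DivRationalOver K₁ (W - D)) (hpos : 0 < ell (W - D))
    (P : Place L (FL N L)) (hP : ∃ c : L, HasValue P (tL N L) c)
    (htr : Transcendental K₁ (tval P)) : ell (D + prim P) = ell D := by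
  classical
  -- a nonzero function in `L(W - D)`
  have hne : riemannRochSpace (W - D) ≠ ⊥ := by
    intro h
    unfold ell at hpos
    rw [h, finrank_bot] at hpos
    exact lt_irrefl _ hpos
  obtain ⟨h, hhmem, hh0⟩ := Submodule.exists_mem_ne_zero_of_ne_bot hne
  obtain ⟨ρ, hρfix, hn⟩ := exists_galois_smul_notMem K₁ P hP htr
    (divOf (K := L) h hh0 + (W - D)).support
  obtain ⟨g, hg⟩ : ∃ g : SemilinearAut L (FL N L),
      g = arithmeticGalois (modularFunctionFieldFull N) ρ := ⟨_, rfl⟩
  rw [← hg] at hn
  have hfixE : g⁻¹ • (W - D) = W - D := by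
    apply smul_divisor_eq_self
    intro Q hQ
    have h1 : g • Q = Q := by
      rw [hg]
      exact galois_smul_eq_of_isRationalOver hPLEXT (hrat Q hQ) ρ hρfix
    conv_lhs => rw [← h1]
    rw [inv_smul_smul]
  have hEval : (W - D) (g • P) = (W - D) P := by
    have h1 := SemilinearAut.divisor_smul_apply g⁻¹ (W - D) P
    rw [hfixE, inv_inv] at h1
    exact h1.symm
  -- the conjugate function
  have hmem' : g⁻¹ • h ∈ riemannRochSpace (W - D) := by
    have := Fermat.Agent.S17.H680.smul_mem_L g⁻¹ hhmem
    rwa [hfixE] at this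
  have hne' : g⁻¹ • h ≠ 0 := Fermat.Agent.S17.H680.smul_ne_zero g⁻¹ hh0
  have hord : P.ord (g⁻¹ • h) = -(W - D) P := by
    have h1 := SemilinearAut.ord_smul g⁻¹ (g • P) h
    rw [inv_smul_smul] at h1
    rw [h1]
    have h2 := Finsupp.notMem_support_iff.mp hn
    rw [Finsupp.add_apply, divOf_apply, hEval] at h2
    linarith
  exact hW.ell_add_prim_eq D P hne' hmem' hord

end Step

section Main

variable {N : ℕ} [NeZero N] {L : Type} [Field L] [Algebra ℚ L] [IsAlgClosed L] [CharZero L]
  [FF1 L (FL N L)]

/-- The partial sums `P₀ + … + P_{i-1}`. -/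
def partSum {g : ℕ} (P : Fin g → Place L (FL N L)) (i : ℕ) : Divisor L (FL N L) :=
  ∑ j : Fin g, if (j : ℕ) < i then prim (P j) else 0

theorem partSum_zero {g : ℕ} (P : Fin g → Place L (FL N L)) : partSum P 0 = 0 := by
  simp [partSum]

theorem partSum_succ {g : ℕ} (P : Fin g → Place L (FL N L)) (i : ℕ) (hi : i < g) :
    partSum P (i + 1) = partSum P i + prim (P ⟨i, hi⟩) := by
  classical
  unfold partSum
  have h1 : ∀ j : Fin g, (if (j : ℕ) < i + 1 then prim (P j) else 0)
      = (if (j : ℕ) < i then prim (P j) else 0) + (if j = ⟨i, hi⟩ then prim (P j) else 0) := by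
    intro j
    by_cases h1 : (j : ℕ) < i
    · have h2 : (j : ℕ) < i + 1 := by omega
      have h3 : j ≠ ⟨i, hi⟩ := fun h => by rw [h] at h1; exact lt_irrefl _ h1
      rw [if_pos h1, if_pos h2, if_neg h3, add_zero]
    · by_cases h2 : j = ⟨i, hi⟩
      · subst h2
        rw [if_pos (Nat.lt_succ_self i), if_neg (lt_irrefl i), if_pos rfl, zero_add]
      · have h3 : ¬ (j : ℕ) < i + 1 := by
          intro h
          apply h2
          apply Fin.ext
          show (j : ℕ) = i
          omega
        rw [if_neg h1, if_neg h3, if_neg h2, add_zero]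
  rw [Finset.sum_congr rfl (fun j _ => h1 j), Finset.sum_add_distrib,
    Finset.sum_ite_eq' Finset.univ (⟨i, hi⟩ : Fin g) (fun j => prim (P j)),
    if_pos (Finset.mem_univ _)]

theorem partSum_top {g : ℕ} (P : Fin g → Place L (FL N L)) : partSum P g = sumPl P := by
  unfold partSum sumPl
  refine Finset.sum_congr rfl (fun j _ => ?_)
  rw [if_pos j.2]

theorem degree_partSum {g : ℕ} (P : Fin g → Place L (FL N L)) (i : ℕ) (hi : i ≤ g) :
    Divisor.degree (partSum P i) = i := by
  induction i with
  | zero => rw [partSum_zero, map_zero]; rfl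
  | succ i ih =>
    rw [partSum_succ P i (by omega), map_add, ih (by omega), degree_prim']
    push_cast
    ring

theorem mem_support_partSum {g : ℕ} (P : Fin g → Place L (FL N L)) (i : ℕ)
    {Q : Place L (FL N L)} (hQ : Q ∈ (partSum P i).support) :
    ∃ j : Fin g, (j : ℕ) < i ∧ Q = P j := by
  classical
  by_contra hcon
  have hcon' : ∀ j : Fin g, (j : ℕ) < i → Q ≠ P j := fun j hj h => hcon ⟨j, hj, h⟩
  apply Finsupp.mem_support_iff.mp hQ
  unfold partSum
  rw [Finsupp.finsetSum_apply]
  refine Finset.sum_eq_zero (fun j _ => ?_)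
  by_cases hj : (j : ℕ) < i
  · rw [if_pos hj]
    exact prim_apply_of_ne (hcon' j hj)
  · rw [if_neg hj]
    rfl

/-- **NS**: generic points are non-special. -/
theorem stmtNS (hPLEXT : StmtPLEXT N L) (hZRAT : StmtZRAT N L) : StmtNS N L := by
  classical
  intro K hK
  obtain ⟨W, hW⟩ := exists_isCanonical (K := L) (F := FL N L)
  refine ⟨genClosure K (tval '' (W.support : Set (Place L (FL N L)))), le_genClosure _ _,
    algClosedIn_genClosure _ _,
    countable_genClosure hK ((Finset.finite_toSet _).image _).countable, ?_⟩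
  intro P hP
  set K₀ := genClosure K (tval '' (W.support : Set (Place L (FL N L)))) with hK₀
  have key : ∀ i : ℕ, i ≤ gL N L → ell (partSum P i) = 1 := by
    intro i
    induction i with
    | zero =>
      intro _
      rw [partSum_zero, ell_zero]
    | succ i ih =>
      intro hi
      have hi' : i < gL N L := by omega
      have ih' := ih (by omega)
      rw [partSum_succ P i hi']
      rw [← ih']
      -- the field of definition of `W - partSum P i`
      let s : Set (Fin (gL N L)) := {j | (j : ℕ) < i}
      let K₁ := genClosure K₀ ((fun j => tval (P j)) '' s)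
      have hK₁ : AlgClosedIn K₁ := algClosedIn_genClosure _ _
      have hrat : DivRationalOver K₁ (W - partSum P i) := by
        intro Q hQ
        have hQ' := Finsupp.support_sub hQ
        rcases Finset.mem_union.mp hQ' with h | h
        · apply isRationalOver_of_tval_mem hZRAT hK₁
          apply le_genClosure
          exact subset_genClosure _ _ ⟨Q, h, rfl⟩
        · obtain ⟨j, hj, rfl⟩ := mem_support_partSum P i h
          apply isRationalOver_of_tval_mem hZRAT hK₁
          exact subset_genClosure _ _ ⟨j, hj, rfl⟩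
      have hpos : 0 < ell (W - partSum P i) := by
        apply hW.ell_sub_pos (le_of_eq ih'.symm)
        rw [degree_partSum P i (by omega), genusFF_eq_genusR]
        exact_mod_cast hi'
      have htr : Transcendental K₁ (tval (P ⟨i, hi'⟩)) :=
        transcendental_genClosure hP.2 (s := s) (i := ⟨i, hi'⟩) (fun h => lt_irrefl i h)
      exact ell_add_prim_of_transcendental hPLEXT hW K₁ (partSum P i) hrat hpos
        (P ⟨i, hi'⟩) (hP.1 _) htr
  rw [← partSum_top]
  exact key _ le_rfl

end Main

end Fermat.Agent.S17.H377
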